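import Fermat.Agent.StickelbergerTwo.Parts
import Fermat.Agent.StickelbergerParity.NumberField
import Mathlib.FieldTheory.Galois.Infinite
import Mathlib.FieldTheory.AbsoluteGaloisGroup

/-!
# The discriminant modulo `4` and modulo `8`

With `P` and `N` the sums over the even and the odd permutations in the determinant of the
conjugates of an integral basis, `T = P + N` and `U = P N` are rational integers and `d = T² - 4 U`.
Modulo a prime above `2`, for odd `d`, Frobenius fixes `P` exactly when it is even, and exactly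
when `U` is even.
-/

set_option autoImplicit false
set_option linter.style.haveILetI false

noncomputable section

namespace FA.StickelbergerTwo

open Matrix NumberField Module

local notation "Qb" => AlgebraicClosure ℚ
local notation "Ob" => integralClosure ℤ (AlgebraicClosure ℚ)

variable {K : Type*} [Field K] [NumberField K]

/-- An embedding on integers. -/
def intEmbedding (σ : K →ₐ[ℚ] Qb) : 𝓞 K →+* Ob :=
  (σ.toRingHom.comp (algebraMap (𝓞 K) K)).codRestrict (integralClosure ℤ Qb) fun x =>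
    map_isIntegral_int σ.toRingHom x.isIntegral_coe

theorem intEmbedding_val (σ : K →ₐ[ℚ] Qb) (x : 𝓞 K) : (intEmbedding σ x : Qb) = σ (x : K) := rfl

/-- An algebraic integer fixed by the Galois group is a rational integer. -/
theorem exists_int_of_fixed (x : Ob) (h : ∀ τ : Qb ≃ₐ[ℚ] Qb, τ (x : Qb) = x) :
    ∃ z : ℤ, (z : Ob) = x := by
  have halg : Algebra.IsAlgebraic ℚ Qb := AlgebraicClosure.isAlgebraic ℚ
  have : IsAlgClosure ℚ Qb := ⟨inferInstance, halg⟩
  have : Normal ℚ Qb := IsAlgClosure.normal ℚ Qb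
  have : IsGalois ℚ Qb := isGalois_iff.mpr ⟨inferInstance, inferInstance⟩
  obtain ⟨q, hq⟩ := (InfiniteGalois.mem_range_algebraMap_iff_fixed (k := ℚ) (x : Qb)).2 h
  have hint : IsIntegral ℤ q :=
    (isIntegral_algebraMap_iff (algebraMap ℚ Qb).injective).1 (hq ▸ x.2)
  obtain ⟨z, hz⟩ := IsIntegrallyClosed.isIntegral_iff.1 hint
  refine ⟨z, Subtype.ext ?_⟩
  rw [← hq, ← hz]
  simp

variable (K)

open scoped Classical in
/-- **`d = T² - 4 U`.** -/
theorem exists_parts : ∃ (e : Free.ChooseBasisIndex ℤ (𝓞 K) ≃ (K →ₐ[ℚ] Qb)) (T U : ℤ),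
    let M : Matrix (Free.ChooseBasisIndex ℤ (𝓞 K)) (Free.ChooseBasisIndex ℤ (𝓞 K)) Ob :=
      Matrix.of fun i j => intEmbedding (e j) (RingOfIntegers.basis K i)
    (T : Ob) = halfDet 1 M + halfDet (-1) M ∧ (U : Ob) = halfDet 1 M * halfDet (-1) M ∧
      discr K = T ^ 2 - 4 * U := by
  obtain ⟨e⟩ : Nonempty (Free.ChooseBasisIndex ℤ (𝓞 K) ≃ (K →ₐ[ℚ] Qb)) :=
    ⟨Fintype.equivOfCardEq (by
      rw [AlgHom.card, ← finrank_eq_card_chooseBasisIndex, RingOfIntegers.rank K])⟩
  set M : Matrix (Free.ChooseBasisIndex ℤ (𝓞 K)) (Free.ChooseBasisIndex ℤ (𝓞 K)) Ob :=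
    Matrix.of fun i j => intEmbedding (e j) (RingOfIntegers.basis K i) with hM
  have hgal : ∀ τ : Qb ≃ₐ[ℚ] Qb, ∃ π : Equiv.Perm (Free.ChooseBasisIndex ℤ (𝓞 K)),
      ∀ s, τ ((halfDet s M : Ob) : Qb) = ((halfDet (s * Equiv.Perm.sign π) M : Ob) : Qb) :=
      fun τ => by
    let f : Free.ChooseBasisIndex ℤ (𝓞 K) → Free.ChooseBasisIndex ℤ (𝓞 K) := fun j =>
      e.symm (τ.toAlgHom.comp (e j))
    have hf : Function.Injective f := fun a c h =>
      e.injective (AlgHom.ext fun x => τ.injective (DFunLike.congr_fun (e.symm.injective h) x))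
    set π := Equiv.ofBijective f (Finite.injective_iff_bijective.1 hf) with hπ
    refine ⟨π, fun s => ?_⟩
    rw [← halfDet_permute]
    change τ.toRingEquiv.toRingHom ((integralClosure ℤ Qb).val.toRingHom (halfDet s M)) =
      (integralClosure ℤ Qb).val.toRingHom (halfDet s (M.submatrix id π))
    rw [map_halfDet, map_halfDet, map_halfDet]
    congr 1
    ext i j
    change τ (e j (RingOfIntegers.basis K i : K)) = e (π j) (RingOfIntegers.basis K i : K)
    rw [hπ, Equiv.ofBijective_apply]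
    simp only [f, Equiv.apply_symm_apply]
    rfl
  obtain ⟨T, hT⟩ := exists_int_of_fixed (halfDet 1 M + halfDet (-1) M) fun τ => by
    obtain ⟨π, hπ⟩ := hgal τ
    push_cast
    rw [map_add, hπ, hπ]
    rcases Int.units_eq_one_or (Equiv.Perm.sign π) with h | h <;> rw [h] <;>
      simp [add_comm]
  obtain ⟨U, hU⟩ := exists_int_of_fixed (halfDet 1 M * halfDet (-1) M) fun τ => by
    obtain ⟨π, hπ⟩ := hgal τ
    push_cast
    rw [map_mul, hπ, hπ]
    rcases Int.units_eq_one_or (Equiv.Perm.sign π) with h | h <;> rw [h] <;>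
      simp [mul_comm]
  refine ⟨e, T, U, hT, hU, ?_⟩
  have hdet : ((discr K : ℤ) : Qb) = (M.det : Qb) ^ 2 := by
    change _ = ((integralClosure ℤ Qb).val.toRingHom M.det) ^ 2
    rw [RingHom.map_det]
    have h := Algebra.discr_eq_det_embeddingsMatrixReindex_pow_two ℚ Qb (integralBasis K) e
    rw [← coe_discr, map_intCast] at h
    rw [h]
    congr 2
    ext i j
    change e j (integralBasis K i) = e j (RingOfIntegers.basis K i : K)
    rw [integralBasis_apply]
  have h2 : ((discr K : ℤ) : Ob) = ((T ^ 2 - 4 * U : ℤ) : Ob) := by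
    push_cast
    rw [hT, hU]
    refine Subtype.ext ?_
    push_cast
    rw [hdet, det_eq_sub]
    push_cast
    rw [show ((4 : Ob) : Qb) = 4 from map_ofNat (integralClosure ℤ Qb).val.toRingHom 4]
    ring
  exact Int.cast_injective h2

/-- **Stickelberger's congruence.** -/
theorem discr_mod_four : discr K % 4 = 0 ∨ discr K % 4 = 1 := by
  obtain ⟨-, T, U, -, -, h⟩ := exists_parts K
  rcases Int.even_or_odd T with ⟨t, rfl⟩ | ⟨t, rfl⟩ <;> ring_nf at h <;> omega

attribute [local instance] FA.StickelbergerParity.quotAlgebra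

/-- **The discriminant modulo `8`.** -/
theorem discr_mod_eight (hodd : ¬ (2 : ℤ) ∣ discr K) :
    discr K % 8 = 1 ↔
      Even (finrank ℚ K + Nat.card {P : Ideal (𝓞 K) // P.IsPrime ∧ (2 : 𝓞 K) ∈ P}) := by
  classical
  obtain ⟨e, T, U, hT, hU, hD⟩ := exists_parts K
  set M : Matrix (Free.ChooseBasisIndex ℤ (𝓞 K)) (Free.ChooseBasisIndex ℤ (𝓞 K)) Ob :=
    Matrix.of fun i j => intEmbedding (e j) (RingOfIntegers.basis K i)
  -- a field of characteristic two
  have hne : Ideal.span {(2 : Ob)} ≠ ⊤ := by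
    rw [Ne, Ideal.span_singleton_eq_top]
    intro hu
    obtain ⟨y, hy⟩ := isUnit_iff_dvd_one.1 hu
    have hy' : (1 : Qb) = 2 * (y : Qb) := congrArg Subtype.val hy
    obtain ⟨z, hz⟩ := exists_int_of_fixed y fun τ => by
      have h := congrArg τ hy'
      rw [map_one, map_mul, map_ofNat, hy'] at h
      exact (mul_left_cancel₀ two_ne_zero h).symm
    rw [← hz] at hy
    have := congrArg Subtype.val hy
    push_cast at this
    have h2 : (1 : ℤ) = 2 * z := by exact_mod_cast this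
    omega
  obtain ⟨Mx, hMx, hle⟩ := Ideal.exists_le_maximal _ hne
  letI : Field (Ob ⧸ Mx) := Ideal.Quotient.field Mx
  haveI : CharP (Ob ⧸ Mx) 2 := (CharP.charP_iff_prime_eq_zero Nat.prime_two).2 (by
    rw [← map_natCast (Ideal.Quotient.mk Mx), Ideal.Quotient.eq_zero_iff_mem]
    exact hle (Ideal.subset_span (by simp)))
  letI : Algebra (ZMod 2) (Ob ⧸ Mx) := ZMod.algebra _ 2
  set π₀ := Ideal.Quotient.mk Mx
  -- the points of `𝓞 K / 2`
  let ρ₀ : Free.ChooseBasisIndex ℤ (𝓞 K) →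
      (𝓞 K ⧸ FA.StickelbergerParity.pIdeal K 2 →+* Ob ⧸ Mx) := fun j =>
    Ideal.Quotient.lift _ (π₀.comp (intEmbedding (e j))) fun a ha => by
      obtain ⟨c, rfl⟩ := (FA.StickelbergerParity.mem_pIdeal K 2).1 ha
      rw [RingHom.comp_apply, map_mul, map_mul, map_natCast, map_natCast, CharP.cast_eq_zero,
        zero_mul]
  let ρ : Free.ChooseBasisIndex ℤ (𝓞 K) →
      (𝓞 K ⧸ FA.StickelbergerParity.pIdeal K 2 →ₐ[ZMod 2] Ob ⧸ Mx) := fun j =>
    { ρ₀ j with commutes' := fun r => RingHom.congr_fun (Subsingleton.elim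
        ((ρ₀ j).comp (algebraMap (ZMod 2) _)) (algebraMap (ZMod 2) (Ob ⧸ Mx))) r }
  set M' := M.map π₀ with hM'
  have hρM : ∀ i j, ρ j (Ideal.Quotient.mk _ (RingOfIntegers.basis K i)) = M' i j := fun i j => rfl
  have hT2 : ((T : ℤ) : Ob ⧸ Mx) = halfDet 1 M' + halfDet (-1) M' := by
    rw [← map_intCast π₀, hT, map_add, map_halfDet, map_halfDet]
  have hU2 : ((U : ℤ) : Ob ⧸ Mx) = halfDet 1 M' * halfDet (-1) M' := by
    rw [← map_intCast π₀, hU, map_mul, map_halfDet, map_halfDet]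
  have hTodd : ¬ (2 : ℤ) ∣ T := fun ⟨t, ht⟩ => hodd ⟨2 * t ^ 2 - 2 * U, by rw [hD, ht]; ring⟩
  have hT1 : ((T : ℤ) : Ob ⧸ Mx) = 1 := by
    obtain ⟨t, rfl⟩ : ∃ t, T = 2 * t + 1 := ⟨T / 2, by omega⟩
    push_cast
    rw [CharTwo.two_eq_zero, zero_mul, zero_add]
  have hdet : M'.det ≠ 0 := by
    rw [det_eq_sub, CharTwo.sub_eq_add, ← hT2, hT1]
    exact one_ne_zero
  have hρ : Function.Injective ρ := fun i j h => by
    by_contra hij
    exact hdet (Matrix.det_zero_of_column_eq hij fun r => by rw [← hρM, ← hρM, h])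
  obtain ⟨b, hb⟩ := FA.StickelbergerParity.exists_basis K 2
  haveI := FA.StickelbergerParity.isReduced_of_discr_ne_zero b (by
    rwa [FA.StickelbergerParity.discr_basis K 2 b fun i => (hb 0 i).2, Ne,
      ZMod.intCast_zmod_eq_zero_iff_dvd])
  obtain ⟨π, hπ, hsq⟩ := exists_frobenius_perm b ρ hρ
  rw [← finrank_eq_card_chooseBasisIndex, RingOfIntegers.rank K,
    FA.StickelbergerParity.card_maximalSpectrum] at hπ
  push_cast at hπ
  have hP : halfDet 1 M' ^ 2 = halfDet (Equiv.Perm.sign π) M' := by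
    rw [← one_mul (Equiv.Perm.sign π), ← halfDet_permute, ← frobenius_def (R := Ob ⧸ Mx) 2,
      map_halfDet]
    congr 1
    ext i j
    rw [Matrix.map_apply, Matrix.submatrix_apply, id_eq, frobenius_def, ← hρM, ← hρM, hsq]
  set P := halfDet 1 M'
  set N := halfDet (-1) M'
  have hPN : P + N = 1 := hT2.symm.trans hT1
  have key : (2 : ℤ) ∣ U ↔ Equiv.Perm.sign π = 1 := by
    rw [show (2 : ℤ) = ((2 : ℕ) : ℤ) from rfl, ← CharP.intCast_eq_zero_iff (Ob ⧸ Mx) 2 U, hU2]
    constructor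
    · intro h
      by_contra hne'
      rw [(Int.units_eq_one_or _).resolve_left hne'] at hP
      have h1 : (1 : Ob ⧸ Mx) = 0 := by
        linear_combination -hPN - hP - h + P * hPN + P * (CharTwo.two_eq_zero (R := Ob ⧸ Mx))
      exact one_ne_zero h1
    · intro h
      rw [h] at hP
      linear_combination P * hPN - hP
  have hpar : Equiv.Perm.sign π = 1 ↔ Even (finrank ℚ K +
      Nat.card {P : Ideal (𝓞 K) // P.IsPrime ∧ (2 : 𝓞 K) ∈ P}) := by
    rw [hπ]
    exact neg_one_pow_eq_one_iff_even (by decide)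
  rw [← hpar, ← key]
  obtain ⟨t, ht⟩ : ∃ t, T = 2 * t + 1 := ⟨T / 2, by omega⟩
  obtain ⟨s, hs⟩ := Int.even_mul_succ_self t
  have hD8 : discr K = 8 * s + 1 - 4 * U := by
    rw [hD, ht]
    linear_combination (4 : ℤ) * hs
  omega

end FA.StickelbergerTwo

end
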