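import Fermat.Agent.StickelbergerParity.Finite
import Mathlib.LinearAlgebra.Matrix.Permutation
import Mathlib.LinearAlgebra.FreeModule.Finite.Matrix

/-!
# Even and odd halves of a determinant, and the sign of Frobenius

The determinant is the difference of the sums over the even and over the odd permutations, and a
permutation of the columns keeps or swaps the two sums by its sign. On the points of a reduced
algebra of rank `n` over `ℤ/p` with `g` factors the Frobenius has sign `(-1) ^ (n + g)`.
-/

set_option autoImplicit false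
set_option linter.style.haveILetI false

noncomputable section

namespace FA.StickelbergerTwo

open Matrix Finset Equiv Module

variable {m : Type*} [Fintype m] [DecidableEq m] {R : Type*} [CommRing R]

/-- The sum over the permutations of sign `s`. -/
def halfDet (s : ℤˣ) (M : Matrix m m R) : R :=
  ∑ σ ∈ univ.filter (fun σ : Perm m => Perm.sign σ = s), ∏ i, M (σ i) i

theorem det_eq_sub (M : Matrix m m R) : M.det = halfDet 1 M - halfDet (-1) M := by
  rw [Matrix.det_apply, halfDet, halfDet,
    ← Finset.sum_filter_add_sum_filter_not univ (fun σ : Perm m => Perm.sign σ = 1),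
    sub_eq_add_neg, ← Finset.sum_neg_distrib]
  congr 1
  · refine sum_congr rfl fun σ hσ => ?_
    rw [(mem_filter.1 hσ).2, one_smul]
  · refine Finset.sum_congr ?_ fun σ hσ => ?_
    · ext σ
      simp only [mem_filter, mem_univ, true_and]
      constructor
      · exact fun h => (Int.units_eq_one_or _).resolve_left h
      · exact fun h h' => by rw [h] at h'; exact absurd h' (by decide)
    · rw [(mem_filter.1 hσ).2, Units.neg_smul, one_smul]

theorem map_halfDet {S : Type*} [CommRing S] (f : R →+* S) (s : ℤˣ) (M : Matrix m m R) :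
    f (halfDet s M) = halfDet s (M.map f) := by
  simp [halfDet, map_sum, map_prod]

theorem halfDet_permute (s : ℤˣ) (π : Perm m) (M : Matrix m m R) :
    halfDet s (M.submatrix id π) = halfDet (s * Perm.sign π) M := by
  refine Finset.sum_nbij' (fun σ => σ * π⁻¹) (fun σ => σ * π) ?_ ?_ (fun σ _ => by simp)
    (fun σ _ => by simp) fun σ _ => ?_
  · intro σ hσ
    rw [mem_filter] at hσ ⊢
    refine ⟨mem_univ _, ?_⟩
    rw [Perm.sign_mul, Perm.sign_inv, hσ.2]
  · intro σ hσ
    rw [mem_filter] at hσ ⊢
    refine ⟨mem_univ _, ?_⟩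
    rw [Perm.sign_mul, hσ.2, mul_assoc, Int.units_mul_self, mul_one]
  · rw [← Equiv.prod_comp π fun i => M ((σ * π⁻¹) i) i]
    simp

/-- The sign of a family of permutations of the fibres. -/
theorem sign_sigmaCongrRight {J : Type*} [Fintype J] [DecidableEq J] {κ : J → Type*}
    [∀ j, Fintype (κ j)] [∀ j, DecidableEq (κ j)] (τ : ∀ j, Perm (κ j)) :
    Perm.sign (Equiv.sigmaCongrRight τ) = ∏ j, Perm.sign (τ j) := by
  refine Units.ext ?_
  rw [Units.coe_prod]
  have h : Equiv.Perm.permMatrix ℤ (Equiv.sigmaCongrRight τ) =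
      blockDiagonal' fun j => (τ j).permMatrix ℤ := by
    ext ⟨j, a⟩ ⟨k, c⟩
    simp only [Equiv.Perm.permMatrix, PEquiv.toMatrix_apply, Equiv.toPEquiv_apply,
      Option.mem_def, Option.some.injEq, blockDiagonal'_apply', Equiv.sigmaCongrRight_apply]
    by_cases hjk : j = k
    · subst hjk
      simp
    · simp [hjk]
  have h1 := Matrix.det_permutation (R := ℤ) (Equiv.sigmaCongrRight τ)
  rw [h, FA.StickelbergerParity.det_blockDiag] at h1
  simp only [Matrix.det_permutation, Int.cast_id] at h1
  exact h1.symm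

/-- **The sign of Frobenius on the points of a finite algebra.** -/
theorem exists_frobenius_perm {p : ℕ} [hp : Fact p.Prime] {A : Type*} [CommRing A]
    [Algebra (ZMod p) A] [IsReduced A] {k : Type*} [Field k] [Algebra (ZMod p) k]
    {ι : Type*} [Fintype ι] [DecidableEq ι] (b : Basis ι (ZMod p) A)
    (ρ : ι → (A →ₐ[ZMod p] k)) (hρ : Function.Injective ρ) :
    ∃ π : Perm ι, Perm.sign π = (-1) ^ (Fintype.card ι + Nat.card (MaximalSpectrum A)) ∧
      ∀ j a, ρ (π j) a = ρ j a ^ p := by
  classical
  haveI : Module.Finite (ZMod p) A := Module.Finite.of_basis b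
  haveI : Finite A := Module.finite_of_finite (ZMod p)
  haveI : IsArtinianRing A := inferInstance
  haveI := Fintype.ofFinite (MaximalSpectrum A)
  let S : MaximalSpectrum A → Type _ := fun I => A ⧸ I.asIdeal
  letI : ∀ I, Field (S I) := fun I => Ideal.Quotient.field I.asIdeal
  haveI : ∀ I, Module.Finite (ZMod p) (S I) := fun I =>
    Module.Finite.of_surjective ((Ideal.Quotient.mkₐ (ZMod p) I.asIdeal).toLinearMap)
      Ideal.Quotient.mk_surjective
  haveI : ∀ I, Finite (S I) := fun I => Module.finite_of_finite (ZMod p)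
  -- all points
  have hcard : Nat.card (A →ₐ[ZMod p] k) ≤ Fintype.card ι := by
    rw [← finrank_eq_card_basis b]
    exact card_algHom_le_finrank _ _ _
  have hρb : Function.Bijective ρ :=
    hρ.bijective_of_nat_card_le (by rwa [Nat.card_eq_fintype_card (α := ι)])
  let Φ : (Σ I, (S I →ₐ[ZMod p] k)) → (A →ₐ[ZMod p] k) := fun x =>
    x.2.comp (Ideal.Quotient.mkₐ (ZMod p) x.1.asIdeal)
  have hΦ : Function.Surjective Φ := by
    intro f
    have hP : (RingHom.ker f.toRingHom).IsPrime := RingHom.ker_isPrime _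
    have hM : (RingHom.ker f.toRingHom).IsMaximal :=
      (IsArtinianRing.isPrime_iff_isMaximal _).1 hP
    exact ⟨⟨⟨_, hM⟩, Ideal.Quotient.liftₐ _ f fun a ha => ha⟩, AlgHom.ext fun a => rfl⟩
  have hn : Fintype.card ι = ∑ I, finrank (ZMod p) (S I) := by
    rw [← finrank_eq_card_basis b,
      ((IsArtinianRing.equivPi A).restrictScalars (ZMod p)).toLinearEquiv.finrank_eq,
      Module.finrank_pi_fintype]
  have hfib : ∀ I, Nat.card (S I →ₐ[ZMod p] k) ≤ finrank (ZMod p) (S I) := fun I =>
    card_algHom_le_finrank _ _ _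
  have hle := Nat.card_le_card_of_surjective Φ hΦ
  rw [Nat.card_sigma, ← Nat.card_eq_of_bijective ρ hρb, Nat.card_eq_fintype_card, hn] at hle
  have heq := (Finset.sum_eq_sum_iff_of_le fun I _ => hfib I).1
    (le_antisymm (Finset.sum_le_sum fun I _ => hfib I) hle)
  have hpt : ∀ I, Nonempty (S I →ₐ[ZMod p] k) := fun I => by
    by_contra h
    rw [not_nonempty_iff] at h
    have := heq I (mem_univ I)
    rw [Nat.card_of_isEmpty] at this
    exact (Module.finrank_pos (R := ZMod p) (M := S I)).ne this
  let φ : ∀ I, S I →ₐ[ZMod p] k := fun I => (hpt I).some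
  let g : (Σ I, Fin (finrank (ZMod p) (S I))) → (A →ₐ[ZMod p] k) := fun x =>
    Φ ⟨x.1, (φ x.1).comp (FiniteField.frobeniusAlgHom (ZMod p) (S x.1) ^ (x.2 : ℕ))⟩
  have hgs : Function.Surjective g := by
    intro f
    obtain ⟨⟨I, h⟩, rfl⟩ := hΦ f
    have hbij : Function.Bijective fun i : Fin (finrank (ZMod p) (S I)) =>
        (φ I).comp (FiniteField.frobeniusAlgHom (ZMod p) (S I) ^ (i : ℕ)) := by
      refine (Function.Injective.bijective_of_nat_card_le (fun i i' e => ?_) ?_)
      · exact (FiniteField.bijective_frobeniusAlgHom_pow (ZMod p) (S I)).1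
          (AlgHom.ext fun x => (φ I).toRingHom.injective (DFunLike.congr_fun e x))
      · rw [Nat.card_fin]; exact hfib I
    obtain ⟨i, hi⟩ := hbij.2 h
    exact ⟨⟨I, i⟩, congrArg (fun t => Φ ⟨I, t⟩) hi⟩
  have hgb : Function.Bijective g := by
    refine hgs.bijective_of_nat_card_le ?_
    rw [Nat.card_sigma, ← Nat.card_eq_of_bijective ρ hρb, Nat.card_eq_fintype_card, hn]
    simp
  let c := (Equiv.ofBijective g hgb).trans (Equiv.ofBijective ρ hρb).symm
  let rot := Equiv.sigmaCongrRight fun I : MaximalSpectrum A =>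
    finRotate (finrank (ZMod p) (S I))
  refine ⟨c.permCongr rot, ?_, fun j a => ?_⟩
  · rw [Perm.sign_permCongr, sign_sigmaCongrRight, hn, Nat.card_eq_fintype_card,
      Fintype.card_eq_sum_ones, ← Finset.sum_add_distrib, ← Finset.prod_pow_eq_pow_sum]
    refine Finset.prod_congr rfl fun I _ => ?_
    obtain ⟨f, hf⟩ : ∃ f, finrank (ZMod p) (S I) = f + 1 :=
      ⟨_, (Nat.succ_pred_eq_of_pos Module.finrank_pos).symm⟩
    rw [sign_finRotate, hf, Nat.add_sub_cancel, pow_succ, pow_succ]
    simp
  · obtain ⟨⟨I, i⟩, rfl⟩ := c.surjective j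
    have hc : ∀ x, ρ (c x) = g x := fun x => Equiv.ofBijective_apply_symm_apply ρ hρb (g x)
    rw [Equiv.permCongr_apply, Equiv.symm_apply_apply, hc, hc]
    simp only [rot, Equiv.sigmaCongrRight_apply, g, Φ, AlgHom.comp_apply]
    have hmod : (finRotate (finrank (ZMod p) (S I)) i : ℕ) % finrank (ZMod p) (S I) =
        ((i : ℕ) + 1) % finrank (ZMod p) (S I) := by
      obtain ⟨f, hf⟩ : ∃ f, finrank (ZMod p) (S I) = f + 1 :=
        ⟨_, (Nat.succ_pred_eq_of_pos Module.finrank_pos).symm⟩
      generalize finrank (ZMod p) (S I) = N at hf i ⊢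
      subst hf
      rw [coe_finRotate]
      split_ifs with h
      · rw [h, Fin.val_last, Nat.mod_self, Nat.zero_mod]
      · rfl
    have key : FiniteField.frobeniusAlgHom (ZMod p) (S I) ^
        (finRotate (finrank (ZMod p) (S I)) i : ℕ) =
        FiniteField.frobeniusAlgHom (ZMod p) (S I) ^ ((i : ℕ) + 1) := by
      conv_lhs => rw [← pow_mod_orderOf, FiniteField.orderOf_frobeniusAlgHom, hmod]
      conv_rhs => rw [← pow_mod_orderOf, FiniteField.orderOf_frobeniusAlgHom]
    rw [← map_pow (φ I), key, pow_succ', AlgHom.mul_apply, FiniteField.coe_frobeniusAlgHom,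
      ZMod.card]

end FA.StickelbergerTwo

end
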